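/-
For an unramified cyclic extension `L/K` of prime degree `p` of a totally complex field whose
norm subgroup has index at most `p`: the kernel of the norm on class groups is `(σ - 1) Cl_L` and
the norm subgroup has index exactly `p`.
-/
import Fermat.Agent.CFT.AmbiguousClasses
import Fermat.Agent.CFTCyclic.Units

set_option autoImplicit false

namespace Fermat.Agent.CFTCyclic

open CFT
open scoped NumberField nonZeroDivisors Pointwise

variable {K L : Type*} [Field K] [NumberField K] [Field L] [NumberField L] [Algebra K L]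
  [IsGalois K L]

/-- Over a totally complex field every extension is unramified at the infinite places. -/
theorem unramifiedAtInfinitePlaces_of_totallyComplex [NumberField.IsTotallyComplex K] :
    IsUnramifiedAtInfinitePlaces K L :=
  ⟨fun w => NumberField.InfinitePlace.isUnramified_iff.2
    (Or.inr (NumberField.IsTotallyComplex.isComplex _))⟩

theorem normMap_ker_eq [NumberField.IsTotallyComplex K] {p : ℕ} (hp : p.Prime)
    (hdeg : Module.finrank K L = p)
    (hur : ∀ P : Ideal (𝓞 L), P.IsMaximal → P.ramificationIdx (𝓞 K) = 1)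
    {σ : Gal(L/K)} (hord : orderOf σ = p) (hpow : ∀ τ : Gal(L/K), ∃ i < p, σ ^ i = τ)
    (gal : ClassGroup (𝓞 L) →* ClassGroup (𝓞 L))
    (hgal : ∀ J, gal (ClassGroup.mk0 J) = ClassGroup.mk0 (galNZ σ J))
    (nm : ClassGroup (𝓞 L) →* ClassGroup (𝓞 K))
    (hnm : ∀ J, nm (ClassGroup.mk0 J) = ClassGroup.mk0 (relNormNZ K L J))
    (hidx : nm.range.index ≤ p) :
    nm.ker = (gal / MonoidHom.id (ClassGroup (𝓞 L))).range ∧ nm.range.index = p := by
  classical
  have := unramifiedAtInfinitePlaces_of_totallyComplex (K := K) (L := L)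
  obtain ⟨he, hH⟩ := units_index_of_unramified hp hdeg hord hpow
  have hA := card_ambiguous_le hord hpow hur he gal hgal
  have hk := relIndex_le_card_capitulation (K := K) (L := L) hord hpow hur
  rw [hH] at hk
  set j := ClassGroup.extendedHom (𝓞 K) (𝓞 L)
  set φ := gal / MonoidHom.id (ClassGroup (𝓞 L))
  have hle : φ.range ≤ nm.ker := by
    rintro _ ⟨C, rfl⟩
    obtain ⟨J, rfl⟩ := ClassGroup.mk0_surjective C
    show nm (gal (ClassGroup.mk0 J) / ClassGroup.mk0 J) = 1
    rw [map_div, hgal, hnm, hnm, div_eq_one]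
    exact congrArg _ (Subtype.ext (Ideal.relNorm_smul (𝓞 K) σ (J : Ideal (𝓞 L))))
  have hφ : φ.range.index = Nat.card φ.ker := by
    have h1 := φ.range.card_mul_index
    have h2 := φ.ker.card_mul_index
    rw [Subgroup.index_ker, ← h1, mul_comm (Nat.card φ.ker)] at h2
    exact (mul_left_cancel₀ Nat.card_pos.ne' h2).symm
  have hh : Nat.card (ClassGroup (𝓞 K)) = Nat.card nm.range * nm.range.index :=
    nm.range.card_mul_index.symm
  have hj : Nat.card j.ker * Nat.card j.range = Nat.card (ClassGroup (𝓞 K)) := by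
    rw [← Subgroup.index_ker, Subgroup.card_mul_index]
  have hup : φ.range.index * p ≤ Nat.card (ClassGroup (𝓞 K)) := by
    rw [hφ, ← hj, mul_comm (Nat.card j.ker)]
    refine (Nat.mul_le_mul_right p hA).trans ?_
    rw [mul_assoc]
    exact Nat.mul_le_mul_left _ hk
  have hdiv : nm.ker.index ≤ φ.range.index :=
    Nat.le_of_dvd (by rw [hφ]; exact Nat.card_pos) (Subgroup.index_dvd_of_le hle)
  have hker : nm.ker.index = Nat.card nm.range := Subgroup.index_ker nm
  have hpos : 0 < Nat.card nm.range := Nat.card_pos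
  have h1 : Nat.card nm.range * nm.range.index ≤ Nat.card nm.range * p :=
    Nat.mul_le_mul_left _ hidx
  have h2 : Nat.card nm.range * p ≤ φ.range.index * p := Nat.mul_le_mul_right _ (hker ▸ hdiv)
  have h3 : φ.range.index * p = Nat.card nm.range * p := by omega
  have h4 : nm.range.index = p :=
    Nat.eq_of_mul_eq_mul_left hpos (le_antisymm h1 (by omega))
  refine ⟨?_, h4⟩
  have h5 : φ.range.index = nm.ker.index := by
    rw [hker]; exact Nat.eq_of_mul_eq_mul_right hp.pos h3
  refine le_antisymm ?_ hle
  have h6 := φ.range.relIndex_mul_index (K := nm.ker) hle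
  rw [h5] at h6
  have h7 : φ.range.relIndex nm.ker = 1 :=
    mul_eq_right₀ (by rw [hker]; exact hpos.ne') |>.1 h6
  exact Subgroup.relIndex_eq_one.1 h7

end Fermat.Agent.CFTCyclic
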