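/-
Basic facts on unramified characters with values in `ZMod n`, `n` arbitrary.
-/
import Fermat.Agent.CFT.CrossField

set_option autoImplicit false

namespace Fermat.Agent.CFTCyclic

open CFT

noncomputable section

local notation "Qb" => AlgebraicClosure ℚ
local notation "GQ" => (AlgebraicClosure ℚ ≃ₐ[ℚ] AlgebraicClosure ℚ)

/-- A hom to `Multiplicative (ZMod n)`, read additively. -/
abbrev valOf {n : ℕ} {G : Type*} [Group G] (f : G →* Multiplicative (ZMod n)) (x : G) : ZMod n :=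
  Multiplicative.toAdd (f x)

variable {n : ℕ} {K : IntermediateField ℚ (AlgebraicClosure ℚ)}
  {a : (AlgebraicClosure ℚ ≃ₐ[ℚ] AlgebraicClosure ℚ) → ZMod n}

theorem unr_map_one (h : UnramifiedChar n K a) : a 1 = 0 := by
  have h1 := h.map_mul 1 1 (one_mem _) (one_mem _)
  rw [one_mul] at h1
  exact left_eq_add.1 h1

theorem unr_map_inv (h : UnramifiedChar n K a) {σ : GQ} (hσ : σ ∈ K.fixingSubgroup) :
    a σ⁻¹ = -a σ := by
  have h1 := h.map_mul σ⁻¹ σ (inv_mem hσ) hσ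
  rw [inv_mul_cancel, unr_map_one h] at h1
  exact eq_neg_of_add_eq_zero_left h1.symm

theorem unr_map_pow (h : UnramifiedChar n K a) {σ : GQ} (hσ : σ ∈ K.fixingSubgroup) (j : ℕ) :
    a (σ ^ j) = j * a σ := by
  induction j with
  | zero => rw [pow_zero, unr_map_one h, Nat.cast_zero, zero_mul]
  | succ j ih => rw [pow_succ, h.map_mul _ _ (pow_mem hσ j) hσ, ih]; push_cast; ring

theorem unr_eq_of_agree (h : UnramifiedChar n K a) {L₀ : IntermediateField ℚ Qb}
    (hL₀ : ∀ σ, σ ∈ K.fixingSubgroup → (∀ x ∈ L₀, σ x = x) → a σ = 0)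
    {σ σ' : GQ} (hσ : σ ∈ K.fixingSubgroup) (hσ' : σ' ∈ K.fixingSubgroup)
    (hag : ∀ x ∈ L₀, σ x = σ' x) : a σ = a σ' := by
  have h1 := hL₀ (σ'⁻¹ * σ) (mul_mem (inv_mem hσ') hσ) fun x hx => by
    rw [AlgEquiv.mul_apply, hag x hx]
    exact σ'.symm_apply_apply x
  rw [h.map_mul _ _ (inv_mem hσ') hσ, unr_map_inv h hσ', neg_add_eq_zero] at h1
  exact h1.symm

end

end Fermat.Agent.CFTCyclic
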