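/-
The crossing lemma for an unramified character with values in `ZMod (p ^ k)`: a class group
character which vanishes where the character does is proportional to it.
-/
import Fermat.Agent.CFTCyclic.Basic
import Fermat.Agent.CFT.ArtinMap

set_option autoImplicit false

open scoped NumberField nonZeroDivisors Pointwise
open IsDedekindDomain

namespace Fermat.Agent.CFTCyclic

open CFT

noncomputable section

local notation "Qb" => AlgebraicClosure ℚ
local notation "GQ" => (AlgebraicClosure ℚ ≃ₐ[ℚ] AlgebraicClosure ℚ)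

variable {p k : ℕ} [hp : Fact p.Prime] {K : IntermediateField ℚ (AlgebraicClosure ℚ)}
  {a : (AlgebraicClosure ℚ ≃ₐ[ℚ] AlgebraicClosure ℚ) → ZMod (p ^ k)}

/-- If `f` vanishes at the primes of degree one outside `S` where `a` does, then `f = c * a` at
the primes of degree one with unit value, also for some value `p * unit` when `2 ≤ k`. -/
theorem exists_proportional [FiniteDimensional ℚ K] [NumberField K]
    [NumberField.IsTotallyComplex K]
    (ha : UnramifiedChar (p ^ k) K a) (hk : k ≠ 0)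
    (hne : ∃ σ ∈ K.fixingSubgroup, IsUnit (a σ)) (S : Finset ℕ)
    (f : ClassGroup (𝓞 K) →* Multiplicative (ZMod (p ^ k)))
    (hf : ∀ (ℓ : ℕ) (hℓ : ℓ.Prime), ℓ ∉ S → ∀ (A : ValuationSubring Qb) (hA : A.LiesOverPrime ℓ)
      (τ : GQ), A.IsFrobeniusAt τ ℓ → τ ∈ K.fixingSubgroup → a τ = 0 →
        valOf f (ClassGroup.mk0 (placeNZ K hℓ hA)) = 0) :
    ∃ c : ZMod (p ^ k),
      (∀ (ℓ : ℕ) (hℓ : ℓ.Prime) (A : ValuationSubring Qb) (hA : A.LiesOverPrime ℓ) (τ : GQ),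
        A.IsFrobeniusAt τ ℓ → τ ∈ K.fixingSubgroup → IsUnit (a τ) → (ℓ ≠ p ∨ p • a τ = 0) →
          valOf f (ClassGroup.mk0 (placeNZ K hℓ hA)) = c * a τ) ∧
      (2 ≤ k → ∀ S' : Finset ℕ, ∃ (ℓ : ℕ) (hℓ : ℓ.Prime) (A : ValuationSubring Qb)
        (hA : A.LiesOverPrime ℓ) (τ : GQ), ℓ ∉ S' ∧ A.IsFrobeniusAt τ ℓ ∧ τ ∈ K.fixingSubgroup ∧
          ∃ u : ZMod (p ^ k), IsUnit u ∧ a τ = (p : ZMod (p ^ k)) * u ∧
            valOf f (ClassGroup.mk0 (placeNZ K hℓ hA)) = c * a τ) := by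
  obtain ⟨m, rfl⟩ : ∃ m, k = m + 1 := ⟨k - 1, by omega⟩
  obtain ⟨c, hc⟩ := classChar_proportional (p := p) (k := m) rfl (Or.inr inferInstance) ha hne f S hf
  refine ⟨c, fun ℓ hℓ A hA τ hτ hτK hu hcond => hc ℓ hℓ ?_ A hA τ hτ hτK, fun hk2 S' => ?_⟩
  · by_cases hℓp : ℓ = p
    · subst hℓp
      obtain h | h0 := hcond
      · exact absurd rfl h
      rw [nsmul_eq_mul, hu.mul_left_eq_zero, ZMod.natCast_eq_zero_iff] at h0
      have hm : m + 1 ≤ 1 := (Nat.pow_dvd_pow_iff_le_right hp.out.one_lt).1 (by rwa [pow_one])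
      obtain rfl : m = 0 := by omega
      have key : ∀ (n : ℕ) [NeZero n], n = ℓ → KummerMoved ℓ n ℓ := by
        intro n _ h
        subst h
        exact kummerMoved_self
      exact key _ (by simp)
    · exact kummerMoved_of_ne (k := m) rfl hℓ hℓp
  obtain ⟨g₀, hg₀K, hg₀⟩ := hne
  obtain ⟨L₀, hL₀f, hL₀⟩ := ha.exists_level
  obtain ⟨ℓ, hℓ, hℓS, B, hB, τ, hτ, hτK, -, ⟨j, hj⟩, ⟨j', hj'⟩⟩ :=
    Density.exists_frobenius_pow_over K L₀ (g₀ ^ p)
      ((IntermediateField.mem_fixingSubgroup_iff _ _).1 (pow_mem hg₀K p)) (insert p S')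
  rw [Finset.mem_insert, not_or] at hℓS
  have hτK' : τ ∈ K.fixingSubgroup := (IntermediateField.mem_fixingSubgroup_iff _ τ).2 hτK
  have haτ : a τ = j' * a (g₀ ^ p) := by
    rw [← unr_map_pow ha (pow_mem hg₀K p)]
    exact unr_eq_of_agree ha hL₀ hτK' (pow_mem (pow_mem hg₀K p) j') hj'
  have hag : a (g₀ ^ p) = j * a τ := by
    rw [← unr_map_pow ha hτK']
    exact unr_eq_of_agree ha hL₀ (pow_mem hg₀K p) (pow_mem hτK' j) hj
  refine ⟨ℓ, hℓ, B, hB, τ, hℓS.2, hτ, hτK', j' * a g₀, IsUnit.mul ?_ hg₀, ?_,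
    hc ℓ hℓ (kummerMoved_of_ne (k := m) rfl hℓ hℓS.1) B hB τ hτ hτK'⟩
  · by_contra he
    rw [haτ, unr_map_pow ha hg₀K] at hag
    rw [ZMod.isUnit_natCast_iff_not_dvd_pow hp.out (Nat.succ_pos m), not_not] at he
    obtain ⟨z, rfl⟩ := he
    have hnil : IsNilpotent ((j : ZMod (p ^ (m + 1))) * ((p * z : ℕ) : ZMod (p ^ (m + 1)))) :=
      ⟨m + 1, by rw [mul_pow, Nat.cast_mul, mul_pow, ← Nat.cast_pow p, ZMod.natCast_self]; ring⟩
    have hp0 : (p : ZMod (p ^ (m + 1))) ≠ 0 := fun h => by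
      rw [ZMod.natCast_eq_zero_iff] at h
      exact absurd (Nat.le_of_dvd hp.out.pos h)
        (not_le.2 (lt_self_pow₀ hp.out.one_lt (by omega)))
    exact hp0 (hg₀.mul_left_eq_zero.1 (hnil.isUnit_sub_one.mul_right_eq_zero.1
      (by linear_combination -hag)))
  · rw [haτ, unr_map_pow ha hg₀K]
    ring

end

end Fermat.Agent.CFTCyclic
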