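/-
A Tchebotarev-style bound for class groups: a subgroup which contains the classes of all primes
of degree one of `F` below primes of degree one of `M` has index at most `[M : F]`.
-/
import Fermat.Agent.CFT.CrossField
import Mathlib.Analysis.Fourier.FiniteAbelian.PontryaginDuality

set_option autoImplicit false

open scoped NumberField nonZeroDivisors
open IsDedekindDomain Finset

namespace Fermat.Agent.CFTCyclic

open CFT

noncomputable section

/-- The character of the class group attached to an additive character of a quotient. -/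
def quotChar {F : Type*} [Field F] [NumberField F] (H : Subgroup (ClassGroup (𝓞 F)))
    (e : AddChar (Additive (ClassGroup (𝓞 F) ⧸ H)) ℂ) : ClassGroup (𝓞 F) →* ℂ :=
  (e.toMonoidHom.comp (⟨⟨fun x => Multiplicative.ofAdd (Additive.ofMul x), rfl⟩, fun _ _ => rfl⟩ :
    ClassGroup (𝓞 F) ⧸ H →* Multiplicative (Additive (ClassGroup (𝓞 F) ⧸ H)))).comp
      (QuotientGroup.mk' H)

theorem quotChar_apply {F : Type*} [Field F] [NumberField F] (H : Subgroup (ClassGroup (𝓞 F)))
    (e : AddChar (Additive (ClassGroup (𝓞 F) ⧸ H)) ℂ) (c : ClassGroup (𝓞 F)) :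
    quotChar H e c = e (Additive.ofMul (QuotientGroup.mk c)) := rfl

theorem index_le_finrank {F M : Type*} [Field F] [NumberField F] [Field M] [NumberField M]
    [Algebra F M] (S : Finset ℕ) (H : Subgroup (ClassGroup (𝓞 F)))
    (π : degreeOneSet M S → HeightOneSpectrum (𝓞 F))
    (hπnorm : ∀ w, Ideal.absNorm (π w).asIdeal = Ideal.absNorm w.1.asIdeal)
    (hπover : ∀ w, w.1.asIdeal.under (𝓞 F) = (π w).asIdeal)
    (hπH : ∀ w, ClassGroup.mk0 (primeIdeal (π w)) ∈ H) :
    H.index ≤ Module.finrank F M := by
  classical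
  let G := Additive (ClassGroup (𝓞 F) ⧸ H)
  have : Finite G := inferInstanceAs (Finite (Additive (ClassGroup (𝓞 F) ⧸ H)))
  let _ : Fintype G := Fintype.ofFinite G
  set m := H.index with hm
  set d := Module.finrank F M with hd
  by_contra hlt
  push Not at hlt
  have hcard : Fintype.card G = m := by
    rw [← Nat.card_eq_fintype_card, hm, Subgroup.index_eq_card]
    exact Nat.card_congr Additive.toMul
  have hex : ∀ e : AddChar G ℂ, ∃ C : ℝ, ∀ s : ℝ, 1 < s → s ≤ 2 →
      ∑' x : HeightOneSpectrum (𝓞 F),
        (quotChar H e (ClassGroup.mk0 (primeIdeal x))).re * primeTerm s x ≤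
      (if e = 0 then -Real.log (s - 1) else 0) + C := by
    intro e
    by_cases he : e = 0
    · subst he
      obtain ⟨C, hC⟩ := exists_tsum_prime_le F
      refine ⟨C, fun s h1 h2 => ?_⟩
      rw [if_pos rfl]
      refine le_trans (le_of_eq (tsum_congr fun x => ?_)) (hC s h1 h2)
      simp [quotChar_apply]
    · obtain ⟨g, hg⟩ : ∃ g, e g ≠ 1 := by
        by_contra hall
        push Not at hall
        exact he (DFunLike.ext e 0 fun g => (hall g).trans (AddChar.zero_apply g).symm)
      obtain ⟨c, hc⟩ := QuotientGroup.mk_surjective g.toMul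
      obtain ⟨C, hC⟩ := exists_tsum_re_char_le (χ := quotChar H e)
        ⟨c, by rw [quotChar_apply, hc]; exact hg⟩
      exact ⟨C, fun s h1 h2 => by rw [if_neg he, zero_add]; exact hC s h1 h2⟩
  choose C hC using hex
  obtain ⟨C', δ, hδ, hδ1, hM⟩ := exists_log_le_tsum_degreeOne M S
  set K₀ : ℝ := |∑ e, C e| * d + m * |C'| with hK₀
  set ε : ℝ := min (δ / 2) (Real.exp (-(K₀ + 1))) with hε
  have hε0 : 0 < ε := lt_min (by linarith) (Real.exp_pos _)
  set s : ℝ := 1 + ε with hs
  have hs1 : 1 < s := by linarith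
  have hsδ : s < 1 + δ := by linarith [min_le_left (δ / 2) (Real.exp (-(K₀ + 1)))]
  have hs2 : s ≤ 2 := by linarith
  set Λ : ℝ := -Real.log (s - 1) with hΛ
  have hΛK : K₀ + 1 ≤ Λ := by
    have h := Real.log_le_log hε0 (min_le_right (δ / 2) (Real.exp (-(K₀ + 1))))
    rw [Real.log_exp] at h
    rw [hΛ, hs, add_sub_cancel_left]
    linarith
  set Z : HeightOneSpectrum (𝓞 F) → ℝ := fun x =>
    if ClassGroup.mk0 (primeIdeal x) ∈ H then primeTerm s x else 0 with hZ
  have hZ0 : ∀ x, 0 ≤ Z x := fun x => by
    rw [hZ]; dsimp only; split_ifs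
    · exact primeTerm_nonneg s x
    · exact le_rfl
  have hZs : Summable Z := Summable.of_nonneg_of_le hZ0 (fun x => by
    rw [hZ]; dsimp only; split_ifs
    · exact le_rfl
    · exact primeTerm_nonneg s x) (summable_primeTerm hs1)
  have hsum : ∀ e, Summable fun x : HeightOneSpectrum (𝓞 F) =>
      (quotChar H e (ClassGroup.mk0 (primeIdeal x))).re * primeTerm s x := fun e =>
    (summable_re_primeCharTerm (quotChar H e) hs1).congr fun x => by simp [primeCharTerm]
  have hA : (m : ℝ) * ∑' x, Z x ≤ Λ + ∑ e, C e := by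
    calc (m : ℝ) * ∑' x, Z x
        = ∑ e, ∑' x : HeightOneSpectrum (𝓞 F),
            (quotChar H e (ClassGroup.mk0 (primeIdeal x))).re * primeTerm s x := by
          rw [← Summable.tsum_finsetSum fun e _ => hsum e, ← tsum_mul_left]
          refine tsum_congr fun x => ?_
          rw [← Finset.sum_mul, ← Complex.re_sum]
          simp only [quotChar_apply]
          rw [AddChar.sum_apply_eq_ite (α := G), hcard, hZ]
          dsimp only
          by_cases hx : ClassGroup.mk0 (primeIdeal x) ∈ H
          · rw [if_pos hx, if_pos (by rw [ofMul_eq_zero, QuotientGroup.eq_one_iff]; exact hx)]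
            simp
          · rw [if_neg hx, if_neg (by rw [ofMul_eq_zero, QuotientGroup.eq_one_iff]; exact hx)]
            simp
      _ ≤ ∑ e, ((if e = 0 then Λ else 0) + C e) := sum_le_sum fun e _ => hC e s hs1 hs2
      _ = Λ + ∑ e, C e := by
          rw [sum_add_distrib, sum_ite_eq' univ 0 (fun _ => Λ), if_pos (mem_univ _)]
  have hB : ∑' w : degreeOneSet M S, primeTerm s w.1 ≤ d * ∑' x, Z x := by
    refine Real.tsum_le_of_sum_le (fun w => primeTerm_nonneg s w.1) fun U => ?_
    calc ∑ w ∈ U, primeTerm s w.1 = ∑ w ∈ U, Z (π w) := by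
          refine sum_congr rfl fun w _ => ?_
          rw [hZ]; dsimp only
          rw [if_pos (hπH w), primeTerm, primeTerm, hπnorm]
      _ = ∑ x ∈ U.image π, (U.filter fun w => π w = x).card • Z x :=
          (sum_comp Z π)
      _ ≤ ∑ x ∈ U.image π, d • Z x := by
          refine sum_le_sum fun x hx => ?_
          obtain ⟨w, hwU, rfl⟩ := Finset.mem_image.1 hx
          refine smul_le_smul_of_nonneg_right ?_ (hZ0 _)
          have hc := card_fiber_le (F := F) (M := M)
            ((U.filter fun w' => π w' = π w).map (Function.Embedding.subtype _)) (π w)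
            (ℓ := Ideal.absNorm (π w).asIdeal) (two_le_absNorm _) rfl
            (fun v hv => by
              obtain ⟨w', hw', rfl⟩ := Finset.mem_map.1 hv
              rw [← (mem_filter.1 hw').2]
              exact (hπnorm w').symm)
            (fun v hv => by
              obtain ⟨w', hw', rfl⟩ := Finset.mem_map.1 hv
              rw [← (mem_filter.1 hw').2]
              exact hπover w')
          rwa [card_map] at hc
      _ ≤ d * ∑' x, Z x := by
          rw [← Finset.smul_sum, nsmul_eq_mul]
          exact mul_le_mul_of_nonneg_left (hZs.sum_le_tsum _ fun x _ => hZ0 x) (Nat.cast_nonneg _)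
  have hM' := (hM s hs1 hsδ).trans hB
  rw [← hΛ] at hM'
  have hmd : (d : ℝ) + 1 ≤ m := by exact_mod_cast hlt
  have hfin : (m : ℝ) * (Λ - C') ≤ d * (Λ + ∑ e, C e) := by
    calc (m : ℝ) * (Λ - C') ≤ m * (d * ∑' x, Z x) :=
          mul_le_mul_of_nonneg_left hM' (Nat.cast_nonneg _)
      _ = d * (m * ∑' x, Z x) := by ring
      _ ≤ d * (Λ + ∑ e, C e) := mul_le_mul_of_nonneg_left hA (Nat.cast_nonneg _)
  have hΛ0 : 0 ≤ Λ := le_trans (by positivity) hΛK
  have h1 := mul_le_mul_of_nonneg_left (le_abs_self (∑ e, C e)) (Nat.cast_nonneg (α := ℝ) d)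
  have h2 := mul_le_mul_of_nonneg_left (le_abs_self C') (Nat.cast_nonneg (α := ℝ) m)
  have h3 := mul_le_mul_of_nonneg_right hmd hΛ0
  linarith

end

end Fermat.Agent.CFTCyclic
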