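/-
Dividing a character with values in `ZMod (p ^ (m + 1))` by `p`, on a subgroup where its values
are not units; extending a class group character over a subgroup of prime index.
-/
import Fermat.Agent.CFTCyclic.SecondIneq
import Fermat.Agent.CFTCyclic.Basic

set_option autoImplicit false

open scoped NumberField nonZeroDivisors
open IsDedekindDomain

namespace Fermat.Agent.CFTCyclic

open CFT

noncomputable section

local notation "Qb" => AlgebraicClosure ℚ
local notation "GQ" => (AlgebraicClosure ℚ ≃ₐ[ℚ] AlgebraicClosure ℚ)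

variable {p m : ℕ} [hp : Fact p.Prime]

/-- Multiplication by `p` from `ZMod (p ^ m)` to `ZMod (p ^ (m + 1))`. -/
def mulP (p m : ℕ) : ZMod (p ^ m) →+ ZMod (p ^ (m + 1)) :=
  ZMod.lift (p ^ m) ⟨(AddMonoidHom.mulLeft (p : ZMod (p ^ (m + 1)))).comp
    (Int.castAddHom (ZMod (p ^ (m + 1)))), by
      show (p : ZMod (p ^ (m + 1))) * (((p ^ m : ℕ) : ℤ) : ZMod (p ^ (m + 1))) = 0
      rw [Int.cast_natCast, ← Nat.cast_mul, ← pow_succ', ZMod.natCast_self]⟩

omit hp in
theorem mulP_natCast (j : ℕ) : mulP p m (j : ZMod (p ^ m)) = (p : ZMod (p ^ (m + 1))) * j := by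
  rw [mulP, ← Int.cast_natCast (R := ZMod (p ^ m)) j, ZMod.lift_coe]
  simp

theorem mulP_injective : Function.Injective (mulP p m) := by
  refine (injective_iff_map_eq_zero _).2 fun x hx => ?_
  rw [← ZMod.natCast_zmod_val x] at hx ⊢
  rw [mulP_natCast, ← Nat.cast_mul, ZMod.natCast_eq_zero_iff, pow_succ',
    Nat.mul_dvd_mul_iff_left hp.out.pos] at hx
  exact (ZMod.natCast_eq_zero_iff _ _).2 hx

theorem not_isUnit_iff {x : ZMod (p ^ (m + 1))} : ¬ IsUnit x ↔ ∃ y, mulP p m y = x := by
  conv_lhs => rw [← ZMod.natCast_zmod_val x]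
  rw [ZMod.isUnit_natCast_iff_not_dvd_pow hp.out (Nat.succ_pos m), not_not]
  constructor
  · rintro ⟨j, hj⟩
    exact ⟨(j : ZMod (p ^ m)), by rw [mulP_natCast, ← Nat.cast_mul, ← hj, ZMod.natCast_zmod_val]⟩
  · rintro ⟨y, rfl⟩
    rw [← ZMod.natCast_zmod_val y, mulP_natCast, ← Nat.cast_mul, ZMod.val_natCast]
    exact (Nat.dvd_mod_iff (dvd_pow_self p m.succ_ne_zero)).2 (dvd_mul_right _ _)

/-- The inverse of `mulP` on its range. -/
def divP (x : ZMod (p ^ (m + 1))) : ZMod (p ^ m) := Function.invFun (mulP p m) x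

theorem mulP_divP {x : ZMod (p ^ (m + 1))} (hx : ¬ IsUnit x) : mulP p m (divP x) = x :=
  Function.invFun_eq (not_isUnit_iff.1 hx)

theorem divP_zero : divP (0 : ZMod (p ^ (m + 1))) = (0 : ZMod (p ^ m)) := by
  refine mulP_injective ?_
  have : Fact (1 < p ^ (m + 1)) := ⟨Nat.one_lt_pow m.succ_ne_zero hp.out.one_lt⟩
  rw [mulP_divP not_isUnit_zero, map_zero]

/-- The character divided by `p`, on a field over which it takes no unit values. -/
theorem unramifiedChar_divP {K L : IntermediateField ℚ Qb} (hKL : K ≤ L)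
    {a : GQ → ZMod (p ^ (m + 1))} (ha : UnramifiedChar (p ^ (m + 1)) K a)
    (hL : ∀ g ∈ L.fixingSubgroup, ¬ IsUnit (a g)) :
    UnramifiedChar (p ^ m) L (fun g => divP (a g)) := by
  have hle := IntermediateField.fixingSubgroup_antitone hKL
  refine ⟨fun σ τ hσ hτ => mulP_injective ?_, ?_, fun ℓ hℓ A hA σ hσ hσL => ?_⟩
  · rw [map_add, mulP_divP (hL _ (mul_mem hσ hτ)), mulP_divP (hL _ hσ), mulP_divP (hL _ hτ),
      ha.map_mul _ _ (hle hσ) (hle hτ)]
  · obtain ⟨L₀, hf, h⟩ := ha.exists_level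
    exact ⟨L₀, hf, fun σ hσ hfix => by show divP (a σ) = 0; rw [h σ (hle hσ) hfix, divP_zero]⟩
  · show divP (a σ) = 0
    rw [ha.unramified ℓ hℓ A hA σ hσ (hle hσL), divP_zero]

/-- A homomorphism on a subgroup of prime index extends with a prescribed value at an outside
element, provided the `p`-th multiple is right. -/
theorem exists_extend_of_prime_index {G A : Type*} [CommGroup G] [AddCommGroup A] {p : ℕ}
    (hp : p.Prime) (H : Subgroup G) (hidx : H.index = p) (fH : H →* Multiplicative A) {C₀ : G}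
    (hC₀ : C₀ ∉ H) (y : A) (hy : p • y = Multiplicative.toAdd (fH ⟨C₀ ^ p, hidx ▸ H.pow_index_mem C₀⟩)) :
    ∃ f : G →* Multiplicative A, (∀ h : H, f h = fH h) ∧ Multiplicative.toAdd (f C₀) = y := by
  classical
  let P : Multiplicative ℤ × H →* G := (zpowersHom G C₀).coprod H.subtype
  let g : Multiplicative ℤ × H →* Multiplicative A :=
    (zpowersHom (Multiplicative A) (Multiplicative.ofAdd y)).coprod fH
  have hpC : C₀ ^ p ∈ H := hidx ▸ H.pow_index_mem C₀
  have hP : ∀ x : Multiplicative ℤ × H, P x = C₀ ^ Multiplicative.toAdd x.1 * x.2 := fun x => rfl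
  have hg : ∀ x : Multiplicative ℤ × H,
      g x = Multiplicative.ofAdd y ^ Multiplicative.toAdd x.1 * fH x.2 := fun x => rfl
  have hcard : Nat.card (G ⧸ H) = p := by rw [← Subgroup.index_eq_card, hidx]
  have hne : (QuotientGroup.mk C₀ : G ⧸ H) ≠ 1 := by rwa [Ne, QuotientGroup.eq_one_iff]
  have := Fact.mk hp
  have hord : orderOf (QuotientGroup.mk C₀ : G ⧸ H) = p := by
    refine orderOf_eq_prime ?_ hne
    rw [← QuotientGroup.mk_pow, QuotientGroup.eq_one_iff]
    exact hpC
  have hsurj : Function.Surjective P := by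
    intro x
    obtain ⟨i, hi⟩ := Subgroup.mem_zpowers_iff.1
      (mem_zpowers_of_prime_card hcard hne (g' := (QuotientGroup.mk x : G ⧸ H)))
    rw [← QuotientGroup.mk_zpow, QuotientGroup.eq] at hi
    exact ⟨(Multiplicative.ofAdd i, ⟨_, hi⟩), by rw [hP]; exact mul_inv_cancel_left _ _⟩
  have hker : P.ker ≤ g.ker := by
    rintro ⟨i, h⟩ hx
    rw [MonoidHom.mem_ker, hP] at hx
    rw [MonoidHom.mem_ker, hg]
    have hmem : C₀ ^ Multiplicative.toAdd i ∈ H := by
      rw [eq_inv_of_mul_eq_one_left hx]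
      exact inv_mem h.2
    have hdvd : (p : ℤ) ∣ Multiplicative.toAdd i := by
      rw [← hord, orderOf_dvd_iff_zpow_eq_one, ← QuotientGroup.mk_zpow, QuotientGroup.eq_one_iff]
      exact hmem
    obtain ⟨j, hj⟩ := hdvd
    simp only [hj] at hx hmem ⊢
    have hh : h = (⟨C₀ ^ p, hpC⟩ : H) ^ (-j) := by
      refine Subtype.ext ?_
      rw [SubgroupClass.coe_zpow, eq_inv_of_mul_eq_one_right hx, zpow_mul, zpow_natCast,
        zpow_neg]
    apply Multiplicative.toAdd.injective
    rw [hh, map_zpow, toAdd_mul, toAdd_zpow, toAdd_zpow, toAdd_ofAdd, toAdd_one, ← hy, neg_smul,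
      mul_smul, natCast_zsmul, smul_comm (p : ℕ) j y]
    exact add_neg_cancel _
  let f := P.liftOfSurjective hsurj ⟨g, hker⟩
  have hf : ∀ x, f (P x) = g x := MonoidHom.liftOfRightInverse_comp_apply _ _ _ _
  refine ⟨f, fun h => ?_, ?_⟩
  · have := hf (1, h)
    rw [hP, hg] at this
    simpa using this
  · have := hf (Multiplicative.ofAdd 1, 1)
    rw [hP, hg] at this
    simp at this
    rw [this, toAdd_ofAdd]

/-- Homomorphisms on a class group agreeing at the primes of degree one outside a finite set are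
equal. -/
theorem classHom_ext {F : Type*} [Field F] [NumberField F] {X : Type*} [CommGroup X] (S : Finset ℕ)
    (f g : ClassGroup (𝓞 F) →* X)
    (h : ∀ v ∈ degreeOneSet F S,
      f (ClassGroup.mk0 (primeIdeal v)) = g (ClassGroup.mk0 (primeIdeal v))) : f = g := by
  have hidx := index_le_finrank (F := F) (M := F) S (f.eqLocus g) (fun w => w.1) (fun _ => rfl)
    (fun w => Ideal.comap_id _) (fun w => h w.1 w.2)
  rw [Module.finrank_self] at hidx
  have h0 : (f.eqLocus g).index ≠ 0 := Subgroup.index_ne_zero_of_finite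
  have htop : f.eqLocus g = ⊤ := Subgroup.index_eq_one.1 (by omega)
  refine MonoidHom.ext fun x => ?_
  have hx : x ∈ f.eqLocus g := htop ▸ Subgroup.mem_top x
  exact hx

end

end Fermat.Agent.CFTCyclic
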