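/-
Artin reciprocity in degree one for an everywhere unramified character with values in
`ZMod (p ^ k)` of a totally complex number field (any prime `p`, including `2`).
-/
import Fermat.Agent.CFTCyclic.Ambiguous
import Fermat.Agent.CFTCyclic.DivChar
import Fermat.Agent.CFT.UnramifiedField
import Fermat.Agent.Density.Main
import Fermat.Agent.CFTCyclic.CrossPow
import Mathlib.NumberTheory.NumberField.InfinitePlace.TotallyRealComplex

set_option autoImplicit false

open scoped NumberField nonZeroDivisors Pointwise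
open IsDedekindDomain

namespace Fermat.Agent.CFTCyclic

open CFT

noncomputable section

local notation "Qb" => AlgebraicClosure ℚ
local notation "GQ" => (AlgebraicClosure ℚ ≃ₐ[ℚ] AlgebraicClosure ℚ)

/-- A Galois conjugate of a prime below a place is the prime below the conjugate place. -/
theorem galNZ_placeNZ {K L : IntermediateField ℚ Qb} [NumberField K] [NumberField L] [Algebra K L]
    {ℓ : ℕ} (hℓ : ℓ.Prime) {A : ValuationSubring Qb} (hA : A.LiesOverPrime ℓ)
    (σ : L ≃ₐ[K] L) (g : GQ) (hg : ∀ y : L, g (y : Qb) = ((σ y : L) : Qb))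
    (hgA : (g • A).LiesOverPrime ℓ) :
    galNZ σ (placeNZ L hℓ hA) = placeNZ L hℓ hgA := by
  refine Subtype.ext (Ideal.ext fun x => ?_)
  rw [coe_galNZ]
  show x ∈ σ • placeIdeal L A ↔ x ∈ placeIdeal L (g • A)
  rw [Ideal.mem_pointwise_smul_iff_inv_smul_mem, mem_placeIdeal, mem_placeIdeal,
    Galois.mem_smul_nonunits]
  have e : (((σ⁻¹ • x : 𝓞 L) : L) : Qb) = g⁻¹ • ((x : L) : Qb) := by
    have h1 : g (((σ⁻¹ (x : L) : L)) : Qb) = ((x : L) : Qb) := by
      rw [hg]
      exact congrArg Subtype.val (σ.apply_symm_apply _)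
    rw [show (((σ⁻¹ • x : 𝓞 L) : L) : Qb) = ((σ⁻¹ (x : L) : L) : Qb) from rfl, ← h1]
    exact (g.symm_apply_apply _).symm
  rw [e]

/-- The goal of the file, as a property of the field and the character. -/
def HasArtinChar (p k : ℕ) (K : IntermediateField ℚ Qb) [NumberField K] (a : GQ → ZMod (p ^ k)) :
    Prop :=
  ∃ f : ClassGroup (𝓞 K) →* Multiplicative (ZMod (p ^ k)),
    ∀ (ℓ : ℕ) (hℓ : ℓ.Prime) (A : ValuationSubring Qb) (hA : A.LiesOverPrime ℓ) (τ : GQ),
      A.IsFrobeniusAt τ ℓ → τ ∈ K.fixingSubgroup → (ℓ ≠ p ∨ p • a τ = 0) →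
        valOf f (ClassGroup.mk0 (placeNZ K hℓ hA)) = a τ

variable {p k : ℕ} [hp : Fact p.Prime] {K : IntermediateField ℚ (AlgebraicClosure ℚ)}
  {a : (AlgebraicClosure ℚ ≃ₐ[ℚ] AlgebraicClosure ℚ) → ZMod (p ^ k)}

theorem cond_divP {m ℓ : ℕ} {x : ZMod (p ^ (m + 1))} (hx : ¬ IsUnit x)
    (h : ℓ ≠ p ∨ p • x = 0) : ℓ ≠ p ∨ p • (divP x : ZMod (p ^ m)) = 0 :=
  h.imp_right fun h0 => mulP_injective (by rw [map_nsmul, mulP_divP hx, map_zero, h0])

theorem exists_eq_nsmul_of_mulP (m : ℕ) (z : ZMod (p ^ m)) :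
    ∃ y : ZMod (p ^ (m + 1)), p • y = mulP p m z ∧ (m = 0 → y = 1) := by
  by_cases hm : m = 0
  · subst hm
    refine ⟨1, ?_, fun _ => rfl⟩
    have hz : z = 0 := by
      rw [← ZMod.natCast_zmod_val z, ZMod.natCast_eq_zero_iff]
      exact one_dvd _
    rw [hz, map_zero, nsmul_one]
    exact (ZMod.natCast_eq_zero_iff _ _).2 (by simp)
  · exact ⟨(z.val : ZMod (p ^ (m + 1))),
      by rw [nsmul_eq_mul, ← mulP_natCast, ZMod.natCast_zmod_val], fun h => absurd h hm⟩

theorem hasArtinChar_succ (m : ℕ)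
    (ih : ∀ (L : IntermediateField ℚ Qb) [NumberField L] [NumberField.IsTotallyComplex L]
      (b : GQ → ZMod (p ^ m)), UnramifiedChar (p ^ m) L b → HasArtinChar p m L b)
    (K : IntermediateField ℚ Qb) [NumberField K] [NumberField.IsTotallyComplex K]
    (a : GQ → ZMod (p ^ (m + 1))) (ha : UnramifiedChar (p ^ (m + 1)) K a) :
    HasArtinChar p (m + 1) K a := by
  classical
  by_cases hne : ∃ σ ∈ K.fixingSubgroup, IsUnit (a σ)
  swap
  · push Not at hne
    obtain ⟨f', hf'⟩ := ih K _ (unramifiedChar_divP le_rfl ha hne)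
    refine ⟨(AddMonoidHom.toMultiplicative (mulP p m)).comp f', fun ℓ hℓ A hA τ hτ hτK hc => ?_⟩
    show mulP p m (valOf f' (ClassGroup.mk0 (placeNZ K hℓ hA))) = a τ
    rw [hf' ℓ hℓ A hA τ hτ hτK (cond_divP (hne τ hτK) hc), mulP_divP (hne τ hτK)]
  have : FiniteDimensional ℚ K := NumberField.to_finiteDimensional
  -- the reduction modulo `p`
  let red : ZMod (p ^ (m + 1)) →+* ZMod p := ZMod.castHom (dvd_pow_self p m.succ_ne_zero) (ZMod p)
  have hred : ∀ x, red x = 0 ↔ ¬ IsUnit x := by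
    intro x
    rw [← ZMod.natCast_zmod_val x, map_natCast, ZMod.natCast_eq_zero_iff,
      ZMod.isUnit_natCast_iff_not_dvd_pow hp.out (Nat.succ_pos m), not_not]
  let ab : GQ → ZMod p := fun g => red (a g)
  have hab : UnramifiedChar p K ab := by
    refine ⟨fun σ τ hσ hτ => ?_, ?_, fun ℓ hℓ A hA σ hσ hσK => ?_⟩
    · show red _ = red _ + red _
      rw [ha.map_mul _ _ hσ hτ, map_add]
    · obtain ⟨L₀, hf, h⟩ := ha.exists_level
      exact ⟨L₀, hf, fun σ hσ hfix => by show red (a σ) = 0; rw [h σ hσ hfix, map_zero]⟩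
    · show red (a σ) = 0
      rw [ha.unramified ℓ hℓ A hA σ hσ hσK, map_zero]
  obtain ⟨σ₁, hσ₁K, hσ₁⟩ := hne
  have hopen := isOpen_charKer hab
  set L := IntermediateField.fixedField (charKer hab) with hLdef
  have : NumberField L := numberField_fixedField hopen
  have hKL : K ≤ L := fun x hx =>
    (IntermediateField.mem_fixedField_iff _ _).2 fun g hg =>
      (IntermediateField.mem_fixingSubgroup_iff _ g).1 (mem_charKer.1 hg).1 x hx
  let _ : Algebra K L := (IntermediateField.inclusion hKL).toRingHom.toAlgebra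
  have : NumberField.IsTotallyComplex L := NumberField.isTotallyComplex_of_algebra (F := K) L
  have hL : ∀ g : GQ, g ∈ charKer hab ↔ ∀ x ∈ L, g x = x :=
    fun g => ⟨fix_of_mem_fixedField, mem_of_fix_fixedField hopen⟩
  have htower : ∀ x : K, ((algebraMap K L x : L) : Qb) = (x : Qb) := fun _ => rfl
  have hmemL : ∀ g : GQ, g ∈ K.fixingSubgroup → ¬ IsUnit (a g) → g ∈ L.fixingSubgroup :=
    fun g hgK hg => (IntermediateField.mem_fixingSubgroup_iff _ g).2
      ((hL g).1 (mem_charKer.2 ⟨hgK, (hred _).2 hg⟩))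
  have hLa : ∀ g ∈ L.fixingSubgroup, g ∈ K.fixingSubgroup ∧ ¬ IsUnit (a g) := fun g hg =>
    have h := mem_charKer.1 ((hL g).2 ((IntermediateField.mem_fixingSubgroup_iff _ g).1 hg))
    ⟨h.1, (hred _).1 h.2⟩
  obtain ⟨hgal, hrank, hur⟩ := charField_props hab
    ⟨σ₁, hσ₁K, fun h => (hred _).1 h hσ₁⟩ L hL htower
  have := hgal
  obtain ⟨σ, hord, -, hpow⟩ := exists_generator (K := K) (L := L) hp.out hrank
  obtain ⟨gal, hgalv⟩ := exists_galMap (K := K) (L := L) σ
  obtain ⟨nm, hnm⟩ := exists_normMap (K := K) (L := L)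
  have hnmP : ∀ (ℓ : ℕ) (hℓ : ℓ.Prime) (A : ValuationSubring Qb) (hA : A.LiesOverPrime ℓ) (τ : GQ),
      A.IsFrobeniusAt τ ℓ → τ ∈ L.fixingSubgroup →
        nm (ClassGroup.mk0 (placeNZ L hℓ hA)) = ClassGroup.mk0 (placeNZ K hℓ hA) := by
    intro ℓ hℓ A hA τ hτ hτL
    rw [hnm]
    exact congrArg _ (Subtype.ext (relNorm_placeIdeal K L htower hℓ hA hτ
      ((IntermediateField.mem_fixingSubgroup_iff _ τ).1 hτL)))
  -- the character of `L`
  obtain ⟨f₁, hf₁⟩ := ih L _ (unramifiedChar_divP hKL ha fun g hg => (hLa g hg).2)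
  obtain ⟨S₁, hS₁⟩ := exists_place_fixing L
  have hinv : f₁.comp gal = f₁ := by
    refine classHom_ext (insert p S₁) _ _ ?_
    rintro v ⟨hvp, hvS⟩
    rw [Finset.mem_insert, not_or] at hvS
    obtain ⟨B, hB, hBv, hfix⟩ := hS₁ v ⟨hvp, hvS.2⟩
    obtain ⟨τ, hτ⟩ := Galois.exists_isFrobeniusAt hvp hB
    have hτL : τ ∈ L.fixingSubgroup :=
      (IntermediateField.mem_fixingSubgroup_iff _ τ).2 (hfix τ hτ.mem_decompositionSubgroup)
    obtain ⟨g, hgK, hg⟩ := exists_lift_aut htower σ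
    obtain ⟨hτK, hτu⟩ := hLa τ hτL
    have hgB : (g • B).LiesOverPrime (Ideal.absNorm v.asIdeal) := by
      rw [ValuationSubring.LiesOverPrime, Galois.mem_smul_nonunits, AlgEquiv.smul_def, map_natCast]
      exact hB
    have hconjK : g * τ * g⁻¹ ∈ K.fixingSubgroup := mul_mem (mul_mem hgK hτK) (inv_mem hgK)
    have haconj : a (g * τ * g⁻¹) = a τ := by
      rw [ha.map_mul _ _ (mul_mem hgK hτK) (inv_mem hgK), ha.map_mul _ _ hgK hτK,
        unr_map_inv ha hgK]
      abel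
    have hconjL : g * τ * g⁻¹ ∈ L.fixingSubgroup := hmemL _ hconjK (haconj ▸ hτu)
    have e : primeIdeal v = placeNZ L hvp hB := Subtype.ext hBv.symm
    rw [MonoidHom.comp_apply, e, hgalv, galNZ_placeNZ hvp hB σ g hg hgB]
    apply Multiplicative.toAdd.injective
    show valOf f₁ _ = valOf f₁ _
    rw [hf₁ _ hvp (g • B) hgB _ (Density.isFrobeniusAt_conj hτ g) hconjL (Or.inl hvS.1),
      hf₁ _ hvp B hB τ hτ hτL (Or.inl hvS.1)]
    exact congrArg divP haconj
  -- the norm subgroup has index at most `p`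
  have hidx : nm.range.index ≤ p := by
    have hπ : ∀ w : degreeOneSet L S₁, ∃ x : HeightOneSpectrum (𝓞 K),
        Ideal.absNorm x.asIdeal = Ideal.absNorm w.1.asIdeal ∧
        w.1.asIdeal.under (𝓞 K) = x.asIdeal ∧
        ClassGroup.mk0 (primeIdeal x) ∈ nm.range := by
      rintro ⟨w, hwp, hwS⟩
      obtain ⟨B, hB, hBw, hfix⟩ := hS₁ w ⟨hwp, hwS⟩
      obtain ⟨τ, hτ⟩ := Galois.exists_isFrobeniusAt hwp hB
      have hfixL := hfix τ hτ.mem_decompositionSubgroup
      refine ⟨placePrime K hwp hB, absNorm_placeIdeal K hwp hB hτ fun x hx => ?_, ?_,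
        ⟨ClassGroup.mk0 (placeNZ L hwp hB), hnmP _ hwp B hB τ hτ
          ((IntermediateField.mem_fixingSubgroup_iff _ τ).2 hfixL)⟩⟩
      · exact hfixL x (hKL hx)
      · show w.asIdeal.under (𝓞 K) = placeIdeal K B
        rw [← hBw]
        ext y
        rw [Ideal.mem_comap, mem_placeIdeal, mem_placeIdeal]
        rw [show ((algebraMap (𝓞 K) (𝓞 L) y : 𝓞 L) : L) = algebraMap K L (y : K) from rfl, htower]
    choose π hπn hπo hπH using hπ
    exact (index_le_finrank S₁ nm.range π hπn hπo hπH).trans hrank.le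
  obtain ⟨hker, hindex⟩ := normMap_ker_eq hp.out hrank hur hord hpow gal hgalv nm hnm hidx
  -- the character on the norm subgroup
  let g₁ : ClassGroup (𝓞 L) →* Multiplicative (ZMod (p ^ (m + 1))) :=
    (AddMonoidHom.toMultiplicative (mulP p m)).comp f₁
  have hle : nm.rangeRestrict.ker ≤ g₁.ker := by
    intro x hx
    rw [MonoidHom.ker_rangeRestrict, hker] at hx
    obtain ⟨C, rfl⟩ := hx
    rw [MonoidHom.mem_ker]
    show AddMonoidHom.toMultiplicative (mulP p m) (f₁ (gal C / C)) = 1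
    rw [map_div f₁, ← MonoidHom.comp_apply f₁ gal, hinv, div_self', map_one]
  let fH : nm.range →* Multiplicative (ZMod (p ^ (m + 1))) :=
    nm.rangeRestrict.liftOfSurjective nm.rangeRestrict_surjective ⟨g₁, hle⟩
  have hfH : ∀ x, fH (nm.rangeRestrict x) = g₁ x :=
    MonoidHom.liftOfRightInverse_comp_apply _ _ _ _
  obtain ⟨C₀, hC₀⟩ : ∃ C₀, C₀ ∉ nm.range := by
    by_contra hall
    push Not at hall
    rw [Subgroup.index_eq_one.2 ((Subgroup.eq_top_iff' _).2 hall)] at hindex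
    exact absurd hindex hp.out.one_lt.ne
  obtain ⟨x₀, hx₀⟩ := nm.rangeRestrict_surjective ⟨C₀ ^ p, hindex ▸ nm.range.pow_index_mem C₀⟩
  obtain ⟨y, hy, hy1⟩ := exists_eq_nsmul_of_mulP (p := p) m (valOf f₁ x₀)
  obtain ⟨f, hf, hfC⟩ := exists_extend_of_prime_index hp.out nm.range hindex fH hC₀ y (by
    rw [hy, ← hx₀, hfH]; rfl)
  -- exact values where `a` is not a unit
  have hexact : ∀ (ℓ : ℕ) (hℓ : ℓ.Prime) (A : ValuationSubring Qb) (hA : A.LiesOverPrime ℓ)
      (τ : GQ), A.IsFrobeniusAt τ ℓ → τ ∈ K.fixingSubgroup → ¬ IsUnit (a τ) →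
        (ℓ ≠ p ∨ p • a τ = 0) → valOf f (ClassGroup.mk0 (placeNZ K hℓ hA)) = a τ := by
    intro ℓ hℓ A hA τ hτ hτK hu hc
    have hτL := hmemL τ hτK hu
    rw [← hnmP ℓ hℓ A hA τ hτ hτL, valOf]
    show Multiplicative.toAdd (f (nm.rangeRestrict (ClassGroup.mk0 (placeNZ L hℓ hA)) : nm.range)) = _
    rw [hf, hfH]
    show mulP p m (valOf f₁ (ClassGroup.mk0 (placeNZ L hℓ hA))) = a τ
    rw [hf₁ ℓ hℓ A hA τ hτ hτL (cond_divP hu hc), mulP_divP hu]
  obtain ⟨c, hc, hc2⟩ := exists_proportional ha m.succ_ne_zero ⟨σ₁, hσ₁K, hσ₁⟩ {p} f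
    (fun ℓ hℓ hℓS A hA τ hτ hτK h0 => by
      have : Fact (1 < p ^ (m + 1)) := ⟨Nat.one_lt_pow m.succ_ne_zero hp.out.one_lt⟩
      have hne0 : ¬ IsUnit (a τ) := by rw [h0]; exact not_isUnit_zero
      rw [hexact ℓ hℓ A hA τ hτ hτK hne0 (Or.inl (fun h => hℓS (by simp [h]))), h0])
  have hcp : (c - 1) * (p : ZMod (p ^ (m + 1))) = 0 := by
    rcases Nat.eq_zero_or_pos m with rfl | hm
    · rw [(ZMod.natCast_eq_zero_iff p _).2 (by rw [zero_add, pow_one]), mul_zero]
    obtain ⟨ℓ, hℓ, A, hA, τ, hℓp, hτ, hτK, u, hu, haτ, hval⟩ := hc2 (by omega) {p}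
    have hnu : ¬ IsUnit (a τ) := by
      rw [haτ, IsUnit.mul_iff]
      exact fun h => (ZMod.isUnit_natCast_iff_not_dvd_pow hp.out (Nat.succ_pos m)).1 h.1 dvd_rfl
    rw [hexact ℓ hℓ A hA τ hτ hτK hnu (Or.inl (fun h => hℓp (by simp [h]))), haτ] at hval
    refine hu.mul_left_eq_zero.1 ?_
    linear_combination -hval
  have hcu : IsUnit c := by
    by_contra hcn
    rcases Nat.eq_zero_or_pos m with rfl | hm
    · obtain ⟨z, hz⟩ := not_isUnit_iff.1 hcn
      have hz0 : ∀ z : ZMod (p ^ 0), mulP p 0 z = 0 := fun z => by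
        rw [← ZMod.natCast_zmod_val z, (ZMod.natCast_eq_zero_iff z.val (p ^ 0)).2 (one_dvd _),
          map_zero]
      rw [hz0] at hz
      obtain ⟨S₂, hS₂⟩ := exists_place_fixing K
      have hf1 : f = 1 := by
        refine classHom_ext (insert p S₂) _ _ ?_
        rintro v ⟨hvp, hvS⟩
        rw [Finset.mem_insert, not_or] at hvS
        obtain ⟨B, hB, hBv, hfix⟩ := hS₂ v ⟨hvp, hvS.2⟩
        obtain ⟨τ, hτ⟩ := Galois.exists_isFrobeniusAt hvp hB
        have hτK : τ ∈ K.fixingSubgroup :=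
          (IntermediateField.mem_fixingSubgroup_iff _ τ).2 (hfix τ hτ.mem_decompositionSubgroup)
        have e : primeIdeal v = placeNZ K hvp hB := Subtype.ext hBv.symm
        rw [e]
        apply Multiplicative.toAdd.injective
        show valOf f _ = 0
        by_cases hu : IsUnit (a τ)
        · rw [hc _ hvp B hB τ hτ hτK hu (Or.inl hvS.1), ← hz, zero_mul]
        · obtain ⟨z', hz'⟩ := not_isUnit_iff.1 hu
          rw [hexact _ hvp B hB τ hτ hτK hu (Or.inl hvS.1), ← hz', hz0]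
      rw [hf1] at hfC
      have h01 : (0 : ZMod (p ^ (0 + 1))) = 1 := hfC.trans (hy1 rfl)
      have : Fact (1 < p ^ (0 + 1)) := ⟨Nat.one_lt_pow (Nat.succ_ne_zero 0) hp.out.one_lt⟩
      exact zero_ne_one h01
    · have h1 : ¬ IsUnit (c - 1) := fun h => by
        rw [h.mul_right_eq_zero, ZMod.natCast_eq_zero_iff] at hcp
        exact absurd (Nat.le_of_dvd hp.out.pos hcp) (by
          rw [not_le]; exact lt_self_pow₀ hp.out.one_lt (by omega))
      exact h1 (by
        obtain ⟨z, hz⟩ := not_isUnit_iff.1 hcn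
        have hnil : IsNilpotent c := ⟨m + 1, by
          rw [← hz, ← ZMod.natCast_zmod_val z, mulP_natCast, mul_pow, ← Nat.cast_pow,
            ZMod.natCast_self, zero_mul]⟩
        exact hnil.isUnit_sub_one)
  obtain ⟨d, hd⟩ := hcu.exists_left_inv
  refine ⟨(powMonoidHom d.val).comp f, fun ℓ hℓ A hA τ hτ hτK hcond => ?_⟩
  show Multiplicative.toAdd (f _ ^ d.val) = a τ
  rw [toAdd_pow, nsmul_eq_mul, ZMod.natCast_zmod_val]
  change d * valOf f (ClassGroup.mk0 (placeNZ K hℓ hA)) = a τ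
  by_cases hu : IsUnit (a τ)
  · rw [hc ℓ hℓ A hA τ hτ hτK hu hcond, ← mul_assoc, hd, one_mul]
  · rw [hexact ℓ hℓ A hA τ hτ hτK hu hcond]
    obtain ⟨z, hz⟩ := not_isUnit_iff.1 hu
    rw [← hz, ← ZMod.natCast_zmod_val z, mulP_natCast]
    linear_combination (-(d * (z.val : ZMod (p ^ (m + 1))))) * hcp +
      ((p : ZMod (p ^ (m + 1))) * (z.val : ZMod (p ^ (m + 1)))) * hd

/-- **Artin reciprocity**, unramified cyclic `p`-power case, at every prime of degree one (the
primes ramified in `K` included), except those over `p` with `p • a τ ≠ 0`. -/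
theorem exists_artinChar_prime_pow [NumberField K] [NumberField.IsTotallyComplex K]
    (ha : UnramifiedChar (p ^ k) K a) :
    ∃ f : ClassGroup (𝓞 K) →* Multiplicative (ZMod (p ^ k)),
      ∀ (ℓ : ℕ) (hℓ : ℓ.Prime) (A : ValuationSubring Qb) (hA : A.LiesOverPrime ℓ) (τ : GQ),
        A.IsFrobeniusAt τ ℓ → τ ∈ K.fixingSubgroup → (ℓ ≠ p ∨ p • a τ = 0) →
          valOf f (ClassGroup.mk0 (placeNZ K hℓ hA)) = a τ := by
  suffices h : ∀ (k : ℕ) (L : IntermediateField ℚ Qb) [NumberField L]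
      [NumberField.IsTotallyComplex L] (b : GQ → ZMod (p ^ k)),
      UnramifiedChar (p ^ k) L b → HasArtinChar p k L b from h k K a ha
  intro k
  induction k with
  | zero =>
    intro L _ _ b _
    have h1 : ∀ x : ZMod (p ^ 0), x = 0 := fun x => by
      rw [← ZMod.natCast_zmod_val x, ZMod.natCast_eq_zero_iff]
      exact one_dvd _
    exact ⟨1, fun _ _ _ _ τ _ _ _ => (h1 _).trans (h1 _).symm⟩
  | succ m ih => exact fun L _ _ b hb => hasArtinChar_succ m ih L b hb

end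

end Fermat.Agent.CFTCyclic
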