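/-
The Artin character of an unramified character of a quadratic totally complex field: it is
anti-invariant under conjugation, it is exact at the ramified primes, and it bounds the number
of characters vanishing at given primes by a class group index.
-/
import Fermat.Agent.CFTCyclic.Main

set_option autoImplicit false

open scoped NumberField nonZeroDivisors Pointwise
open IsDedekindDomain

namespace Fermat.Agent.CFTCyclic

open CFT

noncomputable section

local notation "Qb" => AlgebraicClosure ℚ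
local notation "GQ" => (AlgebraicClosure ℚ ≃ₐ[ℚ] AlgebraicClosure ℚ)

/-- Two Frobenius elements at a place differ by an element of inertia. -/
theorem frobenius_div_mem_inertia {ℓ : ℕ} {A : ValuationSubring Qb} {τ τ' : GQ}
    (hτ : A.IsFrobeniusAt τ ℓ) (hτ' : A.IsFrobeniusAt τ' ℓ) :
    τ'⁻¹ * τ ∈ A.inertiaSubgroupIn ℚ := by
  have h1 := hτ.mem_decompositionSubgroup
  have h2 := hτ'.mem_decompositionSubgroup
  refine Subgroup.mem_map.2 ⟨⟨τ', h2⟩⁻¹ * ⟨τ, h1⟩, MonoidHom.mem_ker.2 (RingEquiv.ext fun x => ?_), rfl⟩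
  show ((⟨τ', h2⟩⁻¹ * ⟨τ, h1⟩ : A.decompositionSubgroup ℚ)) • x = x
  rw [mul_smul, inv_smul_eq_iff]
  exact (hτ.smul_residue_eq x).trans (hτ'.smul_residue_eq x).symm

theorem smul_liesOverPrime {ℓ : ℕ} {A : ValuationSubring Qb} (hA : A.LiesOverPrime ℓ) (g : GQ) :
    (g • A).LiesOverPrime ℓ := by
  rw [ValuationSubring.LiesOverPrime, Galois.mem_smul_nonunits, AlgEquiv.smul_def, map_natCast]
  exact hA

/-- The place below `g • A` only depends on the restriction of `g`. -/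
theorem placeIdeal_smul_eq (K : IntermediateField ℚ Qb) (A : ValuationSubring Qb) {g : GQ}
    (hg : g ∈ K.fixingSubgroup) : placeIdeal K (g • A) = placeIdeal K A := by
  ext x
  rw [mem_placeIdeal, mem_placeIdeal, Galois.mem_smul_nonunits, AlgEquiv.smul_def,
    (IntermediateField.mem_fixingSubgroup_iff _ _).1 (inv_mem hg) _ (x : K).2]

variable {K : IntermediateField ℚ (AlgebraicClosure ℚ)}

/-- In a quadratic field two automorphisms moving it agree on it. -/
theorem inv_mul_mem_fixingSubgroup (hdeg : Module.finrank ℚ K = 2) {g c : GQ}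
    (hc : c ∉ K.fixingSubgroup) (hg : g ∉ K.fixingSubgroup) : c⁻¹ * g ∈ K.fixingSubgroup := by
  classical
  have : FiniteDimensional ℚ K := Module.finite_of_finrank_eq_succ hdeg
  have hcard : Fintype.card (K →ₐ[ℚ] Qb) = 2 := (AlgHom.card ℚ K Qb).trans hdeg
  let r : GQ → (K →ₐ[ℚ] Qb) := fun σ => σ.toAlgHom.comp K.val
  have hne : ∀ σ : GQ, σ ∉ K.fixingSubgroup → r σ ≠ K.val := fun σ hσ h =>
    hσ ((IntermediateField.mem_fixingSubgroup_iff _ σ).2 fun x hx => DFunLike.congr_fun h ⟨x, hx⟩)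
  have h : r g = r c := by
    by_contra hgc
    have h3 : ({K.val, r c, r g} : Finset (K →ₐ[ℚ] Qb)).card = 3 :=
      Finset.card_eq_three.2 ⟨_, _, _, (hne c hc).symm, (hne g hg).symm, Ne.symm hgc, rfl⟩
    have := Finset.card_le_univ ({K.val, r c, r g} : Finset (K →ₐ[ℚ] Qb))
    omega
  refine (IntermediateField.mem_fixingSubgroup_iff _ _).2 fun x hx => ?_
  rw [AlgEquiv.mul_apply]
  have h' : g x = c x := DFunLike.congr_fun h ⟨x, hx⟩
  rw [h']
  exact c.symm_apply_apply x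

theorem conj_mem_fixingSubgroup (hdeg : Module.finrank ℚ K = 2) {c τ : GQ}
    (hc : c ∉ K.fixingSubgroup) (hτ : τ ∈ K.fixingSubgroup) : c * τ * c⁻¹ ∈ K.fixingSubgroup := by
  by_contra h
  have h1 := inv_mul_mem_fixingSubgroup hdeg hc h
  rw [← mul_assoc, ← mul_assoc, inv_mul_cancel, one_mul] at h1
  exact hc (inv_inv c ▸ inv_mem ((Subgroup.mul_mem_cancel_left _ hτ).1 h1))

variable [NumberField K]

/-- `(ℓ) = P * P'` for a prime `P` of degree one and its conjugate `P'`. -/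
theorem span_eq_mul_conj (hdeg : Module.finrank ℚ K = 2) {c : GQ} (hc : c ∉ K.fixingSubgroup)
    {ℓ : ℕ} (hℓ : ℓ.Prime) {A : ValuationSubring Qb} (hA : A.LiesOverPrime ℓ) {τ : GQ}
    (hτ : A.IsFrobeniusAt τ ℓ) (hτK : τ ∈ K.fixingSubgroup) :
    Ideal.span {(ℓ : 𝓞 K)} = placeIdeal K A * placeIdeal K (c • A) := by
  obtain ⟨Q, hQ⟩ : placeIdeal K A ∣ Ideal.span {(ℓ : 𝓞 K)} := Ideal.dvd_iff_le.2
    ((Ideal.span_singleton_le_iff_mem _).2 (natCast_mem_placeIdeal K hA))
  have hN := absNorm_placeIdeal K hℓ hA hτ ((IntermediateField.mem_fixingSubgroup_iff _ τ).1 hτK)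
  have hQN : Ideal.absNorm Q = ℓ := by
    have h := congrArg Ideal.absNorm hQ
    rw [map_mul, hN, Ideal.absNorm_span_singleton, ← map_natCast (algebraMap ℤ (𝓞 K)) ℓ,
      Algebra.norm_algebraMap, NumberField.RingOfIntegers.rank, hdeg, Int.natAbs_pow,
      Int.natAbs_natCast, pow_two] at h
    exact (mul_left_cancel₀ hℓ.ne_zero h).symm
  have hQp : Q.IsPrime := Ideal.isPrime_of_irreducible_absNorm
    (hQN ▸ hℓ)
  have hQ0 : Q ≠ ⊥ := fun h => hℓ.ne_zero (by rw [← hQN, h, Ideal.absNorm_bot])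
  have hmaxQ := hQp.isMaximal hQ0
  obtain ⟨ℓ', B, hℓ', hB, hBQ⟩ := exists_place_over K Q hmaxQ
  have hℓℓ : ℓ' = ℓ := by
    have h1 : ((ℓ : 𝓞 K)) ∈ placeIdeal K B := hBQ ▸ hQN ▸ Ideal.absNorm_mem Q
    rw [mem_placeIdeal] at h1
    have h2 := (Galois.intCast_mem_nonunits_iff hℓ' hB (ℓ : ℤ)).1 (by simpa using h1)
    exact (Nat.prime_dvd_prime_iff_eq hℓ' hℓ).1 (Int.natCast_dvd_natCast.1 h2)
  subst hℓℓ
  obtain ⟨g, hg⟩ := Galois.exists_smul_eq_of_liesOverPrime hℓ' hA hB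
  by_cases hgK : g ∈ K.fixingSubgroup
  · -- `(ℓ) = P ^ 2`, so `P` is fixed by conjugation
    have hQP : Q = placeIdeal K A := by rw [← hBQ, ← hg, placeIdeal_smul_eq K A hgK]
    rw [hQP] at hQ
    have hcP : placeIdeal K (c • A) = placeIdeal K A := by
      refine ((placeIdeal_isMaximal K hℓ' hA).eq_of_le (placeIdeal_isPrime K _).ne_top ?_).symm
      intro x hx
      have hx2 : x ^ 2 ∈ Ideal.span {(ℓ' : 𝓞 K)} := by
        rw [hQ, pow_two]
        exact Ideal.mul_mem_mul hx hx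
      refine (placeIdeal_isPrime K (c • A)).mem_of_pow_mem 2 ?_
      exact (Ideal.span_singleton_le_iff_mem _).2
        (natCast_mem_placeIdeal K (smul_liesOverPrime hA c)) hx2
    rw [hcP, hQ]
  · have hcg := inv_mul_mem_fixingSubgroup hdeg hgK hc
    have e : placeIdeal K (c • A) = Q := by
      rw [← hBQ, ← hg]
      have h1 : c • A = (c * g⁻¹) • (g • A) := by rw [mul_smul, inv_smul_smul]
      have h2 : c * g⁻¹ ∈ K.fixingSubgroup := by
        have h := conj_mem_fixingSubgroup hdeg hgK hcg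
        rwa [← mul_assoc, mul_inv_cancel, one_mul] at h
      rw [h1, placeIdeal_smul_eq K _ h2]
    rw [e, hQ]

/-- A class group character takes opposite values at conjugate primes of degree one. -/
theorem valOf_conj {n : ℕ} (hdeg : Module.finrank ℚ K = 2) {c : GQ} (hc : c ∉ K.fixingSubgroup)
    (f : ClassGroup (𝓞 K) →* Multiplicative (ZMod n))
    {ℓ : ℕ} (hℓ : ℓ.Prime) {A : ValuationSubring Qb} (hA : A.LiesOverPrime ℓ) {τ : GQ}
    (hτ : A.IsFrobeniusAt τ ℓ) (hτK : τ ∈ K.fixingSubgroup) :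
    valOf f (ClassGroup.mk0 (placeNZ K hℓ (smul_liesOverPrime hA c))) =
      -valOf f (ClassGroup.mk0 (placeNZ K hℓ hA)) := by
  have h1 : ClassGroup.mk0 (placeNZ K hℓ hA * placeNZ K hℓ (smul_liesOverPrime hA c)) = 1 :=
    (ClassGroup.mk0_eq_one_iff (placeNZ K hℓ hA * placeNZ K hℓ (smul_liesOverPrime hA c)).2).2
      ⟨⟨(ℓ : 𝓞 K), (span_eq_mul_conj hdeg hc hℓ hA hτ hτK).symm⟩⟩
  rw [map_mul] at h1
  have h2 := congrArg (valOf f) h1
  rw [valOf, map_mul, toAdd_mul, valOf, map_one, toAdd_one] at h2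
  exact eq_neg_of_add_eq_zero_right h2

variable [NumberField.IsTotallyComplex K] {p k : ℕ} [hp : Fact p.Prime]
  {a : (AlgebraicClosure ℚ ≃ₐ[ℚ] AlgebraicClosure ℚ) → ZMod (p ^ k)}

/-- An unramified character of a quadratic field is anti-invariant under conjugation. -/
theorem unr_conj (hdeg : Module.finrank ℚ K = 2) (ha : UnramifiedChar (p ^ k) K a) {c g : GQ}
    (hc : c ∉ K.fixingSubgroup) (hg : g ∈ K.fixingSubgroup) : a (c * g * c⁻¹) = -a g := by
  have : FiniteDimensional ℚ K := NumberField.to_finiteDimensional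
  obtain ⟨f, hf⟩ := exists_artinChar_prime_pow ha
  obtain ⟨L₀, hL₀f, hL₀⟩ := ha.exists_level
  have : FiniteDimensional ℚ (L₀.map (c⁻¹ : GQ).toAlgHom) :=
    (L₀.intermediateFieldMap (c⁻¹ : GQ)).toLinearEquiv.finiteDimensional
  obtain ⟨ℓ, hℓ, hℓS, B, hB, τ, hτ, hτK, -, ⟨j, hj⟩, -⟩ :=
    Density.exists_frobenius_pow_over K (L₀ ⊔ L₀.map (c⁻¹ : GQ).toAlgHom) g
      ((IntermediateField.mem_fixingSubgroup_iff _ g).1 hg) {p}
  rw [Finset.mem_singleton] at hℓS
  have hτK' : τ ∈ K.fixingSubgroup := (IntermediateField.mem_fixingSubgroup_iff _ τ).2 hτK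
  have hcτ := conj_mem_fixingSubgroup hdeg hc hτK'
  have h1 : a (c * τ * c⁻¹) = -a τ := by
    rw [← hf ℓ hℓ B hB τ hτ hτK' (Or.inl hℓS),
      ← hf ℓ hℓ (c • B) (smul_liesOverPrime hB c) _ (Density.isFrobeniusAt_conj hτ c) hcτ
        (Or.inl hℓS)]
    exact valOf_conj hdeg hc f hℓ hB hτ hτK'
  have h2 : a g = j * a τ := by
    rw [← unr_map_pow ha hτK']
    exact unr_eq_of_agree ha hL₀ hg (pow_mem hτK' j) fun x hx =>
      hj x ((le_sup_left : L₀ ≤ _) hx)
  have h3 : a (c * g * c⁻¹) = j * a (c * τ * c⁻¹) := by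
    rw [← unr_map_pow ha hcτ, conj_pow]
    refine unr_eq_of_agree ha hL₀ (conj_mem_fixingSubgroup hdeg hc hg)
      (conj_mem_fixingSubgroup hdeg hc (pow_mem hτK' j)) fun x hx => ?_
    simp only [AlgEquiv.mul_apply]
    congr 1
    exact hj _ ((le_sup_right : _ ≤ L₀ ⊔ L₀.map (c⁻¹ : GQ).toAlgHom) ⟨x, hx, rfl⟩)
  rw [h3, h1, mul_neg, h2]

/-- At a ramified prime the value at a Frobenius element is killed by `2`. -/
theorem two_nsmul_eq_zero_of_ramified (hdeg : Module.finrank ℚ K = 2)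
    (ha : UnramifiedChar (p ^ k) K a) {ℓ : ℕ} (hℓ : ℓ.Prime) {A : ValuationSubring Qb}
    (hA : A.LiesOverPrime ℓ) {τ : GQ} (hτ : A.IsFrobeniusAt τ ℓ) (hτK : τ ∈ K.fixingSubgroup)
    (hram : ¬ A.inertiaSubgroupIn ℚ ≤ K.fixingSubgroup) : 2 • a τ = 0 := by
  obtain ⟨c, hcI, hc⟩ := SetLike.not_le_iff_exists.1 hram
  obtain ⟨⟨c', hcD⟩, -, rfl⟩ := Subgroup.mem_map.1 hcI
  have hfix : c' • A = A := hcD
  have hconj : A.IsFrobeniusAt (c' * τ * c'⁻¹) ℓ := by
    have := Density.isFrobeniusAt_conj hτ c'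
    rwa [hfix] at this
  have hK : c' * τ * c'⁻¹ ∈ K.fixingSubgroup := conj_mem_fixingSubgroup hdeg hc hτK
  have h1 := ha.unramified ℓ hℓ A hA _ (frobenius_div_mem_inertia hconj hτ)
    (mul_mem (inv_mem hτK) hK)
  rw [ha.map_mul _ _ (inv_mem hτK) hK, unr_map_inv ha hτK, neg_add_eq_zero] at h1
  rw [two_nsmul]
  nth_rewrite 1 [h1]
  rw [show a (c' * τ * c'⁻¹) = -a τ from unr_conj hdeg ha hc hτK, neg_add_cancel]

omit [NumberField K] [NumberField.IsTotallyComplex K] in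
/-- A ramified prime of a quadratic field has a Frobenius element fixing the field. -/
theorem exists_frobenius_fix_of_ramified (hdeg : Module.finrank ℚ K = 2) {ℓ : ℕ} (hℓ : ℓ.Prime)
    {A : ValuationSubring Qb} (hA : A.LiesOverPrime ℓ)
    (hram : ¬ A.inertiaSubgroupIn ℚ ≤ K.fixingSubgroup) :
    ∃ τ : GQ, A.IsFrobeniusAt τ ℓ ∧ τ ∈ K.fixingSubgroup := by
  obtain ⟨τ, hτ⟩ := Galois.exists_isFrobeniusAt hℓ hA
  by_cases hτK : τ ∈ K.fixingSubgroup
  · exact ⟨τ, hτ, hτK⟩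
  obtain ⟨c, hcI, hc⟩ := SetLike.not_le_iff_exists.1 hram
  obtain ⟨⟨c', hcD⟩, hker, rfl⟩ := Subgroup.mem_map.1 hcI
  refine ⟨c'⁻¹ * τ, ⟨mul_mem (inv_mem hcD) hτ.mem_decompositionSubgroup, fun x => ?_⟩,
    inv_mul_mem_fixingSubgroup hdeg hc hτK⟩
  show (⟨c', hcD⟩⁻¹ * ⟨τ, hτ.mem_decompositionSubgroup⟩ : A.decompositionSubgroup ℚ) • x = x ^ ℓ
  have h1 : (⟨c', hcD⟩⁻¹ : A.decompositionSubgroup ℚ) • x ^ ℓ = x ^ ℓ :=
    RingEquiv.congr_fun (MonoidHom.mem_ker.1 (inv_mem hker)) (x ^ ℓ)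
  rw [mul_smul, hτ.smul_residue_eq, h1]

omit a in
/-- **Artin reciprocity for a quadratic field**: exact at the ramified primes too. -/
theorem exists_artinChar_quadratic {k : ℕ} {a : GQ → ZMod (2 ^ k)}
    (hdeg : Module.finrank ℚ K = 2) (ha : UnramifiedChar (2 ^ k) K a) :
    ∃ f : ClassGroup (𝓞 K) →* Multiplicative (ZMod (2 ^ k)),
      ∀ (ℓ : ℕ) (hℓ : ℓ.Prime) (A : ValuationSubring Qb) (hA : A.LiesOverPrime ℓ) (τ : GQ),
        A.IsFrobeniusAt τ ℓ → τ ∈ K.fixingSubgroup →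
          (ℓ ≠ 2 ∨ ¬ A.inertiaSubgroupIn ℚ ≤ K.fixingSubgroup) →
            valOf f (ClassGroup.mk0 (placeNZ K hℓ hA)) = a τ := by
  have : Fact (Nat.Prime 2) := ⟨Nat.prime_two⟩
  obtain ⟨f, hf⟩ := exists_artinChar_prime_pow ha
  exact ⟨f, fun ℓ hℓ A hA τ hτ hτK h => hf ℓ hℓ A hA τ hτ hτK
    (h.imp_right (two_nsmul_eq_zero_of_ramified hdeg ha hℓ hA hτ hτK))⟩

omit [NumberField K] [NumberField.IsTotallyComplex K] a in
theorem natCard_homs_le {G : Type*} [CommGroup G] [Finite G] (n : ℕ) [NeZero n] :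
    Nat.card (G →* Multiplicative (ZMod n)) ≤ Nat.card G := by
  classical
  let _ : Fintype G := Fintype.ofFinite G
  let F : (G →* Multiplicative (ZMod n)) → AddChar (Additive G) ℂ := fun f =>
    { toFun := fun x => ZMod.stdAddChar (valOf f x.toMul)
      map_zero_eq_one' := by simp [valOf]
      map_add_eq_mul' := fun x y => by simp [valOf, AddChar.map_add_eq_mul] }
  have hF : Function.Injective F := fun f f' h => MonoidHom.ext fun x =>
    Multiplicative.toAdd.injective (ZMod.injective_stdAddChar (DFunLike.congr_fun h (Additive.ofMul x)))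
  calc Nat.card (G →* Multiplicative (ZMod n)) ≤ Nat.card (AddChar (Additive G) ℂ) :=
        Nat.card_le_card_of_injective F hF
    _ = Nat.card G := by
        rw [Nat.card_eq_fintype_card, AddChar.card_eq, ← Nat.card_eq_fintype_card]
        exact Nat.card_congr Additive.toMul

omit a in
/-- Characters vanishing at given primes of degree one are no more than the index of the
subgroup of the class group generated by these primes. -/
theorem natCard_chars_le {ι J : Type*} (a : ι → GQ → ZMod (p ^ k))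
    (ha : ∀ i, UnramifiedChar (p ^ k) K (a i))
    (hinj : ∀ i i', (∀ g ∈ K.fixingSubgroup, a i g = a i' g) → i = i')
    (ℓ : J → ℕ) (hℓ : ∀ j, (ℓ j).Prime) (A : J → ValuationSubring Qb)
    (hA : ∀ j, (A j).LiesOverPrime (ℓ j)) (τ : J → GQ)
    (hτ : ∀ j, (A j).IsFrobeniusAt (τ j) (ℓ j)) (hτK : ∀ j, τ j ∈ K.fixingSubgroup)
    (hvan : ∀ i j, a i (τ j) = 0) :
    Finite ι ∧ Nat.card ι ≤
      (Subgroup.closure (Set.range fun j => ClassGroup.mk0 (placeNZ K (hℓ j) (hA j)))).index := by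
  classical
  have : FiniteDimensional ℚ K := NumberField.to_finiteDimensional
  set H := Subgroup.closure (Set.range fun j => ClassGroup.mk0 (placeNZ K (hℓ j) (hA j))) with hH
  choose f hf using fun i => exists_artinChar_prime_pow (ha i)
  have hfH : ∀ i, H ≤ (f i).ker := by
    intro i
    rw [hH, Subgroup.closure_le]
    rintro _ ⟨j, rfl⟩
    apply Multiplicative.toAdd.injective
    show valOf (f i) _ = 0
    rw [hf i _ (hℓ j) (A j) (hA j) (τ j) (hτ j) (hτK j) (Or.inr (by rw [hvan, nsmul_zero])), hvan]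
  let Φ : ι → (ClassGroup (𝓞 K) ⧸ H →* Multiplicative (ZMod (p ^ k))) := fun i =>
    QuotientGroup.lift H (f i) (hfH i)
  have hΦ : Function.Injective Φ := by
    intro i i' h
    have hff : ∀ x, f i x = f i' x := fun x => DFunLike.congr_fun h (QuotientGroup.mk x)
    refine hinj i i' fun g hg => ?_
    obtain ⟨L, hLf, hL⟩ := (ha i).exists_level
    obtain ⟨L', hL'f, hL'⟩ := (ha i').exists_level
    obtain ⟨m, hm, hmS, B, hB, σ, hσ, hσK, -, ⟨e, he⟩, -⟩ :=
      Density.exists_frobenius_pow_over K (L ⊔ L') g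
        ((IntermediateField.mem_fixingSubgroup_iff _ g).1 hg) {p}
    rw [Finset.mem_singleton] at hmS
    have hσK' : σ ∈ K.fixingSubgroup := (IntermediateField.mem_fixingSubgroup_iff _ σ).2 hσK
    rw [unr_eq_of_agree (ha i) hL hg (pow_mem hσK' e) fun x hx => he x ((le_sup_left : L ≤ _) hx),
      unr_eq_of_agree (ha i') hL' hg (pow_mem hσK' e) fun x hx =>
        he x ((le_sup_right : L' ≤ _) hx),
      unr_map_pow (ha i) hσK', unr_map_pow (ha i') hσK',
      ← hf i m hm B hB σ hσ hσK' (Or.inl hmS), ← hf i' m hm B hB σ hσ hσK' (Or.inl hmS),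
      valOf, valOf, hff]
  have hfin : Finite (ClassGroup (𝓞 K) ⧸ H →* Multiplicative (ZMod (p ^ k))) :=
    Finite.of_injective _ DFunLike.coe_injective
  exact ⟨Finite.of_injective Φ hΦ, (Nat.card_le_card_of_injective Φ hΦ).trans
    ((natCard_homs_le _).trans_eq (Subgroup.index_eq_card H).symm)⟩

end

end Fermat.Agent.CFTCyclic
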